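/-
Programme S33 (masterplan = report 1237, helper3), brick N1 (helper99): **`LocalGeomTate` + `cubic_on_ker`**.

`LocalGeomTate p N M' π₁ π₂` is the sub-record of `T1B.Local66.Assembly.LocalGeom` that the NEW half of S33 needs,
with the bridge `j` on the whole `p`-POWER torsion `torsPinf N p = J₀(N)(ℚ̄)[p^∞]` instead of `J₀(N)(ℚ̄)[p]`:
the local points `A = J(ℚ̄_p)` with the action of the local inertia group `Ip p`, the bridge `j` (injective,
inertia-equivariant through `localGaloisToGlobal p`), the classes of points `Pt ⊇ im j`, the subgroups `J1`, `J0`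
(`(τ - 1) Pt ⊆ J0`, `(τ - 1) J0 ⊆ J1`), and the toric map `ιT : (E → 1 + 𝔪) → A` with
`j (ker π₁ ∩ ker π₂ ∩ J₀(N)[p^n]) ∩ J1 ⊆ ιT (μ_{p^n}^E)`.  NO field on `Φ`, `ρ`, `δ`, Brandt.

**`cubic_on_ker`**: for `σ σ' τ ∈ Ip p`, `a : ℕ` with `τ ζ = ζ ^ a` on the `p^n`-torsion one-units, and
`x ∈ J₀(N)(ℚ̄)[p^n]` with `π₁ x = π₂ x = 0`:  `(τ̃ - a)(σ̃ - 1)(σ̃' - 1) x = 0`  (`˜ := localGaloisToGlobal p`).
This is the cubic identity (O-1)/(O-3) of the masterplan on `K = ker β_*`.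
-/
import Mathlib
import Fermat.Agent.T1B.Local66.Assembly

set_option autoImplicit false
set_option linter.unusedSectionVars false
set_option linter.unusedVariables false

open Fermat.Agent.TW.B5.Iface ModularCurve
open Fermat.Agent.T1B.Plumb66.Cyclo Fermat.Agent.T1B.Plumb66.OneUnits
open Fermat.Agent.T1B.Plumb66.Inertia (Ip mem_Ip)
open Fermat.Agent.T1B.Local66.Assembly (map_pow_of_map_mul)

noncomputable section

namespace Fermat.Agent.S33P.Geo99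

universe uA uE

local notation "Γ" => (AlgebraicClosure ℚ ≃ₐ[ℚ] AlgebraicClosure ℚ)

/-- `J₀(N)(ℚ̄)[p^∞]`: the `p`-power torsion. -/
def torsPinf (N p : ℕ) : AddSubgroup (JZero N) where
  carrier := {x | ∃ n : ℕ, (p ^ n) • x = 0}
  zero_mem' := ⟨0, nsmul_zero _⟩
  add_mem' := by
    rintro x y ⟨n, hn⟩ ⟨m, hm⟩
    refine ⟨n + m, ?_⟩
    have h1 : (p ^ (n + m)) • x = 0 := by rw [pow_add, mul_nsmul, hn, nsmul_zero]
    have h2 : (p ^ (n + m)) • y = 0 := by rw [pow_add, mul_comm, mul_nsmul, hm, nsmul_zero]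
    rw [nsmul_add, h1, h2, add_zero]
  neg_mem' := by
    rintro x ⟨n, hn⟩
    exact ⟨n, by rw [neg_nsmul, hn, neg_zero]⟩

theorem mem_torsPinf {N p : ℕ} {x : JZero N} : x ∈ torsPinf N p ↔ ∃ n : ℕ, (p ^ n) • x = 0 :=
  Iff.rfl

theorem mem_torsPinf_of_pow {N p : ℕ} {x : JZero N} {n : ℕ} (h : (p ^ n) • x = 0) :
    x ∈ torsPinf N p := ⟨n, h⟩

/-- The Galois group preserves `n`-torsion. -/
theorem galois_nsmul_eq_zero {N : ℕ} (g : Γ) {x : JZero N} {m : ℕ} (h : m • x = 0) :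
    m • (g • x) = 0 := by
  have h1 : g • (m • x) = m • (g • x) :=
    map_nsmul (DistribSMul.toAddMonoidHom (JZero N) g) m x
  have h0 : g • (0 : JZero N) = 0 := map_zero (DistribSMul.toAddMonoidHom (JZero N) g)
  rw [← h1, h, h0]

theorem galois_smul_mem_torsPinf {N p : ℕ} (g : Γ) {x : JZero N} (hx : x ∈ torsPinf N p) :
    g • x ∈ torsPinf N p := by
  obtain ⟨n, hn⟩ := hx
  exact ⟨n, galois_nsmul_eq_zero g hn⟩

set_option linter.checkUnivs false in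
/-- **LOCAL GEOMETRY for the Tate module** at `p` for the level `N`: the fields of
`Local66.Assembly.LocalGeom` needed for the cubic identity on `ker (π₁, π₂)`, with `j` on the `p`-power torsion. -/
structure LocalGeomTate (p : ℕ) [Fact p.Prime] (N M' : ℕ) [NeZero N] [NeZero M']
    (π₁ π₂ : JZero N →+ JZero M') where
  /-- the local points `J(ℚ̄_p)` -/
  A : Type uA
  [instA : AddCommGroup A]
  [actA : DistribMulAction ↥(Ip p) A]
  /-- J-BRIDGE, on the `p`-power torsion -/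
  j : ↥(torsPinf N p) →+ A
  j_inj : Function.Injective j
  j_res : ∀ (τ : ↥(Ip p)) (x : JZero N) (hx : x ∈ torsPinf N p)
    (hx' : localGaloisToGlobal p (τ : Gp p) • x ∈ torsPinf N p), j ⟨_, hx'⟩ = τ • j ⟨x, hx⟩
  /-- the classes of points defined over a finite extension of `ℚ_p` -/
  Pt : AddSubgroup A
  j_Pt : ∀ x, j x ∈ Pt
  /-- NODE: `J0` = classes with `trop = 0` on the nose -/
  J0 : AddSubgroup A
  sub_mem_J0 : ∀ τ : ↥(Ip p), ∀ x ∈ Pt, τ • x - x ∈ J0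
  /-- RED: the kernel of reduction -/
  J1 : AddSubgroup A
  sub_mem_J1 : ∀ τ : ↥(Ip p), ∀ x ∈ J0, τ • x - x ∈ J1
  /-- TORIC: the toric map and the description of `ker β ∩ J1 ∩ A[p^n]` (`β = (π₁, π₂)`) -/
  E : Type uE
  ιT : (E → oneUnits p) → A
  ιT_mul : ∀ a b : E → oneUnits p, ιT (a * b) = ιT a + ιT b
  ιT_smul : ∀ (τ : ↥(Ip p)) (z : E → oneUnits p), ιT (fun e => (τ : Gp p) • z e) = τ • ιT z
  toric_inf : ∀ (x : JZero N) (hx : x ∈ torsPinf N p) (n : ℕ), (p ^ n) • x = 0 → π₁ x = 0 →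
    π₂ x = 0 → j ⟨x, hx⟩ ∈ J1 →
    ∃ z : E → oneUnits p, (∀ e, z e ^ (p ^ n) = 1) ∧ ιT z = j ⟨x, hx⟩

attribute [instance] LocalGeomTate.instA LocalGeomTate.actA

section Cubic

variable {p : ℕ} [Fact p.Prime] {N M' : ℕ} [NeZero N] [NeZero M'] {π₁ π₂ : JZero N →+ JZero M'}

/-- `j ((τ̃ - 1) x) = (τ - 1) (j x)`. -/
theorem LocalGeomTate.j_sub (G : LocalGeomTate.{uA, uE} p N M' π₁ π₂) (τ : ↥(Ip p)) (x : JZero N) (hx : x ∈ torsPinf N p)
    (hx' : localGaloisToGlobal p (τ : Gp p) • x - x ∈ torsPinf N p) :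
    G.j ⟨_, hx'⟩ = τ • G.j ⟨x, hx⟩ - G.j ⟨x, hx⟩ := by
  have hτx : localGaloisToGlobal p (τ : Gp p) • x ∈ torsPinf N p :=
    galois_smul_mem_torsPinf _ hx
  have h1 : (⟨localGaloisToGlobal p (τ : Gp p) • x - x, hx'⟩ : ↥(torsPinf N p)) =
      ⟨localGaloisToGlobal p (τ : Gp p) • x, hτx⟩ - ⟨x, hx⟩ := rfl
  rw [h1, map_sub, G.j_res τ x hx hτx]

/-- **The cubic identity on `ker (π₁, π₂)`** (NEW half of S33). -/
theorem LocalGeomTate.cubic_on_ker (G : LocalGeomTate.{uA, uE} p N M' π₁ π₂)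
    (hπ₁ : ∀ (g : Γ) (x : JZero N), π₁ x = 0 → π₁ (g • x) = 0)
    (hπ₂ : ∀ (g : Γ) (x : JZero N), π₂ x = 0 → π₂ (g • x) = 0)
    (σ σ' τ : ↥(Ip p)) (n a : ℕ)
    (ha : ∀ u : oneUnits p, u ^ (p ^ n) = 1 → (τ : Gp p) • u = u ^ a)
    (x : JZero N) (hx : (p ^ n) • x = 0) (h1 : π₁ x = 0) (h2 : π₂ x = 0) :
    localGaloisToGlobal p (τ : Gp p) •
        (localGaloisToGlobal p (σ : Gp p) • (localGaloisToGlobal p (σ' : Gp p) • x - x) -
          (localGaloisToGlobal p (σ' : Gp p) • x - x)) -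
      a • (localGaloisToGlobal p (σ : Gp p) • (localGaloisToGlobal p (σ' : Gp p) • x - x) -
          (localGaloisToGlobal p (σ' : Gp p) • x - x)) = 0 := by
  set s : Γ := localGaloisToGlobal p (σ : Gp p) with hs
  set s' : Γ := localGaloisToGlobal p (σ' : Gp p) with hs'
  set t : Γ := localGaloisToGlobal p (τ : Gp p) with ht
  -- torsion and kernel conditions along the way
  have hxT : x ∈ torsPinf N p := ⟨n, hx⟩
  set w' : JZero N := s' • x - x with hw'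
  have hw'n : (p ^ n) • w' = 0 := by
    rw [hw', nsmul_sub, galois_nsmul_eq_zero s' hx, hx, sub_zero]
  have hw'T : w' ∈ torsPinf N p := ⟨n, hw'n⟩
  have hw'1 : π₁ w' = 0 := by rw [hw', map_sub, hπ₁ s' x h1, h1, sub_zero]
  have hw'2 : π₂ w' = 0 := by rw [hw', map_sub, hπ₂ s' x h2, h2, sub_zero]
  set w : JZero N := s • w' - w' with hw
  have hwn : (p ^ n) • w = 0 := by
    rw [hw, nsmul_sub, galois_nsmul_eq_zero s hw'n, hw'n, sub_zero]
  have hwT : w ∈ torsPinf N p := ⟨n, hwn⟩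
  have hw1 : π₁ w = 0 := by rw [hw, map_sub, hπ₁ s w' hw'1, hw'1, sub_zero]
  have hw2 : π₂ w = 0 := by rw [hw, map_sub, hπ₂ s w' hw'2, hw'2, sub_zero]
  -- `j w' ∈ J0`, `j w ∈ J1`
  have hjw' : G.j ⟨w', hw'T⟩ ∈ G.J0 := by
    rw [G.j_sub σ' x hxT hw'T]
    exact G.sub_mem_J0 σ' _ (G.j_Pt _)
  have hjw : G.j ⟨w, hwT⟩ ∈ G.J1 := by
    rw [G.j_sub σ w' hw'T hwT]
    exact G.sub_mem_J1 σ _ hjw'
  -- toric
  obtain ⟨z, hz, hzw⟩ := G.toric_inf w hwT n hwn hw1 hw2 hjw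
  have hτ : τ • G.j ⟨w, hwT⟩ = a • G.j ⟨w, hwT⟩ := by
    rw [← hzw, ← G.ιT_smul τ z]
    have h : (fun e => (τ : Gp p) • z e) = z ^ a := by
      funext e
      rw [Pi.pow_apply]
      exact ha (z e) (hz e)
    rw [h, map_pow_of_map_mul G.ιT G.ιT_mul]
  -- conclusion through the injectivity of `j`
  have htwT : t • w ∈ torsPinf N p := galois_smul_mem_torsPinf t hwT
  have hgoal : (⟨t • w, htwT⟩ : ↥(torsPinf N p)) - a • ⟨w, hwT⟩ = 0 := by
    apply G.j_inj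
    rw [map_sub, map_nsmul, map_zero, G.j_res τ w hwT htwT, hτ, sub_self]
  exact congrArg Subtype.val hgoal

end Cubic

end Fermat.Agent.S33P.Geo99
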