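/-
Programme S33 (ruling R1 = report 1278, helper3), brick N3 (helper99): **the cubic identity on
`K' = ker β_*` in the Tate module `TJ p N = Ta_p J₀(N)(ℚ̄)`** (model `ES/J/TateJZero13`).

For additive maps `π₁ π₂ : JZero N →+ JZero M'` (the two degeneracy maps; only the Galois stability of their
kernels is used), `K' := kerB p π₁ π₂ = ker (map π₁) ⊓ ker (map π₂) ⊂ TJ p N`, `χ := cyclo p` (`ES/J/CycloChar8`),
`I₀ := IA p = (padicPlace p).inertiaSubgroupIn ℚ`: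

* `CubicTors p N M' π₁ π₂ : Prop` : the identity on torsion points (twin of `ES/N34/IfaceN4.InertiaTors`):
  `∀ σ σ' τ ∈ I₀, ∀ n, ∀ x ∈ J₀(N)[p^n] ∩ ker π₁ ∩ ker π₂, (τ - χ_n(τ)) (σ - 1) (σ' - 1) x = 0`,
  `χ_n(τ) := cf p (cyclo p τ) n` the representative in `[0, p^n)` of `χ(τ) mod p^n`;
* `smul_oneUnit_eq_pow` : `τ • u = u ^ χ_n(res τ)` for `τ ∈ G_p`, `u ∈ 1 + 𝔪`, `u ^ p^n = 1` (the hypothesis `ha` of
  `LocalGeomTate.cubic_on_ker`);
* `cubicTors_of_localGeomTate : LocalGeomTate p N M' π₁ π₂ → CubicTors p N M' π₁ π₂` (N1's `cubic_on_ker` +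
  `Plumb66.Inertia.exists_inertial`);
* **`cubic_on_kerB`** : `CubicTors → ∀ σ σ' τ ∈ I₀, ∀ x ∈ K', (ρ τ - χ τ) ((ρ σ - 1) ((ρ σ' - 1) x)) = 0` (`ρ = rhoT p N`);
  `cubic_mul_on_kerB` : the same with the product in `Module.End ℤ_[p] (TJ p N)`;
* `cubic_baseChange` : for a commutative `ℤ_[p]`-algebra `T`, the base-changed operator
  `((ρ τ).baseChange T - χ τ) ∘ ((ρ σ).baseChange T - 1) ∘ ((ρ σ').baseChange T - 1)` kills the image of `T ⊗ K'` in
  `T ⊗ TJ p N` (the form consumed by step (4) of the ruling);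
* the abstract layer (`kerB`, `mem_kerB`, `rho_mem_kerB`, `cubic_abs`) for any `TateModule p J`.
-/
import Mathlib
import Fermat.Agent.S33P.Geo99.Tate
import Fermat.Agent.ES.J.TateJZero13
import Fermat.Agent.ES.J.CycloChar8

set_option autoImplicit false
set_option linter.unusedSectionVars false
set_option linter.unusedVariables false

open Fermat.Agent.TW.B5.Iface ModularCurve
open Fermat.Agent.T1B.Plumb66.OneUnits
open Fermat.Agent.T1B.Plumb66.Inertia (Ip mem_Ip IA)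
open Fermat.Agent.ES.J.TateModule13 Fermat.Agent.ES.J.TateJZero13 Fermat.Agent.ES.J.CycloChar8
open scoped TensorProduct

noncomputable section

namespace Fermat.Agent.S33P.Geo99

local notation "Γ" => (AlgebraicClosure ℚ ≃ₐ[ℚ] AlgebraicClosure ℚ)

/-! ### abstract layer -/

section Abstract

variable {p : ℕ} [hp : Fact p.Prime] {J J' : Type*} [AddCommGroup J] [AddCommGroup J']
  {G : Type*} [Group G] [DistribMulAction G J]

variable (p) in
/-- `K' = ker β_*`, `β = (π₁, π₂)`: the common kernel of the two induced maps on Tate modules. -/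
def kerB (π₁ π₂ : J →+ J') : Submodule ℤ_[p] (TateModule p J) :=
  LinearMap.ker (map (p := p) π₁) ⊓ LinearMap.ker (map (p := p) π₂)

theorem mem_kerB {π₁ π₂ : J →+ J'} {x : TateModule p J} :
    x ∈ kerB p π₁ π₂ ↔ ∀ k, π₁ (proj k x) = 0 ∧ π₂ (proj k x) = 0 := by
  constructor
  · rintro ⟨h1, h2⟩ k
    have h1' : map (p := p) π₁ x = 0 := h1
    have h2' : map (p := p) π₂ x = 0 := h2
    refine ⟨?_, ?_⟩
    · rw [← proj_map, h1', map_zero]
    · rw [← proj_map, h2', map_zero]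
  · intro h
    refine ⟨?_, ?_⟩
    · show map (p := p) π₁ x = 0
      ext k
      exact (h k).1
    · show map (p := p) π₂ x = 0
      ext k
      exact (h k).2

/-- `K'` is stable under the group as soon as `ker π₁` and `ker π₂` are. -/
theorem rho_mem_kerB {π₁ π₂ : J →+ J'} (hπ₁ : ∀ (g : G) (y : J), π₁ y = 0 → π₁ (g • y) = 0)
    (hπ₂ : ∀ (g : G) (y : J), π₂ y = 0 → π₂ (g • y) = 0) (g : G) {x : TateModule p J}
    (hx : x ∈ kerB p π₁ π₂) : rho p J g x ∈ kerB p π₁ π₂ := by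
  rw [mem_kerB] at hx ⊢
  intro k
  rw [proj_rho]
  exact ⟨hπ₁ g _ (hx k).1, hπ₂ g _ (hx k).2⟩

/-- **cubic identity, abstract transfer** from the `p`-power torsion to `K' ⊂ TateModule p J`. -/
theorem cubic_abs (π₁ π₂ : J →+ J') (σ σ' τ : G) (χ : ℤ_[p])
    (h : ∀ (k : ℕ) (y : J), p ^ k • y = 0 → π₁ y = 0 → π₂ y = 0 →
      τ • (σ • (σ' • y - y) - (σ' • y - y)) - cf p χ k • (σ • (σ' • y - y) - (σ' • y - y)) = 0)
    (x : TateModule p J) (hx : x ∈ kerB p π₁ π₂) :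
    (rho p J τ - χ • (1 : Module.End ℤ_[p] (TateModule p J)))
      ((rho p J σ - 1) ((rho p J σ' - 1) x)) = 0 := by
  rw [mem_kerB] at hx
  ext k
  have := h k (proj k x) (pow_smul_proj k x) (hx k).1 (hx k).2
  exact this

/-! ### `β_*` and the quotient `M / K'` -/

section Beta

variable [DistribMulAction G J']

variable (p) in
/-- `β_* = (π₁_*, π₂_*) : Ta_p J → (Ta_p J')²`. -/
def betaStar (π₁ π₂ : J →+ J') : TateModule p J →ₗ[ℤ_[p]] (Fin 2 → TateModule p J') :=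
  LinearMap.pi ![map (p := p) π₁, map (p := p) π₂]

theorem betaStar_zero (π₁ π₂ : J →+ J') (x : TateModule p J) :
    betaStar p π₁ π₂ x 0 = map π₁ x := rfl

theorem betaStar_one (π₁ π₂ : J →+ J') (x : TateModule p J) :
    betaStar p π₁ π₂ x 1 = map π₂ x := rfl

theorem ker_betaStar (π₁ π₂ : J →+ J') :
    LinearMap.ker (betaStar p π₁ π₂) = kerB p π₁ π₂ := by
  ext x
  constructor
  · intro hx
    have hx' : betaStar p π₁ π₂ x = 0 := hx
    refine ⟨?_, ?_⟩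
    · show map (p := p) π₁ x = 0
      rw [← betaStar_zero π₁ π₂ x, hx']
      rfl
    · show map (p := p) π₂ x = 0
      rw [← betaStar_one π₁ π₂ x, hx']
      rfl
  · rintro ⟨h1, h2⟩
    have h1' : map (p := p) π₁ x = 0 := h1
    have h2' : map (p := p) π₂ x = 0 := h2
    show betaStar p π₁ π₂ x = 0
    funext i
    fin_cases i
    · exact h1'
    · exact h2'

/-- `β_*` is equivariant when `π₁`, `π₂` are. -/
theorem betaStar_rho {π₁ π₂ : J →+ J'} (hπ₁ : ∀ (g : G) (y : J), π₁ (g • y) = g • π₁ y)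
    (hπ₂ : ∀ (g : G) (y : J), π₂ (g • y) = g • π₂ y) (g : G) (x : TateModule p J) (i : Fin 2) :
    betaStar p π₁ π₂ (rho p J g x) i = rho p J' g (betaStar p π₁ π₂ x i) := by
  fin_cases i
  · show map (p := p) π₁ (rho p J g x) = rho p J' g (map (p := p) π₁ x)
    ext k
    exact hπ₁ g _
  · show map (p := p) π₂ (rho p J g x) = rho p J' g (map (p := p) π₂ x)
    ext k
    exact hπ₂ g _

variable (p) in
/-- the induced map `M / K' → (Ta_p J')²`. -/
def betaBar (π₁ π₂ : J →+ J') :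
    (TateModule p J ⧸ kerB p π₁ π₂) →ₗ[ℤ_[p]] (Fin 2 → TateModule p J') :=
  (kerB p π₁ π₂).liftQ (betaStar p π₁ π₂) (le_of_eq (ker_betaStar π₁ π₂).symm)

theorem betaBar_mk (π₁ π₂ : J →+ J') (x : TateModule p J) :
    betaBar p π₁ π₂ (Submodule.Quotient.mk x) = betaStar p π₁ π₂ x := rfl

/-- `M / K' ↪ (Ta_p J')²`. -/
theorem betaBar_injective (π₁ π₂ : J →+ J') : Function.Injective (betaBar p π₁ π₂) := by
  rw [← LinearMap.ker_eq_bot]
  exact Submodule.ker_liftQ_eq_bot _ _ _ (le_of_eq (ker_betaStar π₁ π₂))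

/-- `K' ≤ (ρ g)⁻¹ K'`, in the form needed by `Submodule.mapQ`. -/
theorem kerB_le_comap {π₁ π₂ : J →+ J'} (hπ₁ : ∀ (g : G) (y : J), π₁ (g • y) = g • π₁ y)
    (hπ₂ : ∀ (g : G) (y : J), π₂ (g • y) = g • π₂ y) (g : G) :
    kerB p π₁ π₂ ≤ (kerB p π₁ π₂).comap (rho p J g) := fun x hx =>
  rho_mem_kerB (fun g y hy => by rw [hπ₁, hy, smul_zero]) (fun g y hy => by rw [hπ₂, hy, smul_zero])
    g hx

/-- `M / K' ↪ (Ta_p J')²` is equivariant. -/
theorem betaBar_mapQ {π₁ π₂ : J →+ J'} (hπ₁ : ∀ (g : G) (y : J), π₁ (g • y) = g • π₁ y)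
    (hπ₂ : ∀ (g : G) (y : J), π₂ (g • y) = g • π₂ y) (g : G)
    (q : TateModule p J ⧸ kerB p π₁ π₂) (i : Fin 2) :
    betaBar p π₁ π₂ ((kerB p π₁ π₂).mapQ (kerB p π₁ π₂) (rho p J g) (kerB_le_comap hπ₁ hπ₂ g) q) i =
      rho p J' g (betaBar p π₁ π₂ q i) := by
  obtain ⟨x, rfl⟩ := Submodule.Quotient.mk_surjective _ q
  rw [Submodule.mapQ_apply, betaBar_mk, betaBar_mk]
  exact betaStar_rho hπ₁ hπ₂ g x i

end Beta

/-- base change of a cubic identity on a submodule (Mathlib-only). -/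
theorem baseChange_cubic_abs {R M T : Type*} [CommRing R] [AddCommGroup M] [Module R M] [CommRing T]
    [Algebra R T] (K : Submodule R M) (f g h : Module.End R M) (c : R)
    (H : ∀ x ∈ K, (h - c • (1 : Module.End R M)) ((f - 1) ((g - 1) x)) = 0)
    (y : T ⊗[R] M) (hy : y ∈ LinearMap.range (K.subtype.baseChange T)) :
    (h.baseChange T - algebraMap R T c • (1 : Module.End T (T ⊗[R] M)))
      ((f.baseChange T - 1) ((g.baseChange T - 1) y)) = 0 := by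
  obtain ⟨w, rfl⟩ := hy
  have e1 : ∀ (f : Module.End R M) (t : T) (m : M),
      (f.baseChange T - 1) (t ⊗ₜ[R] m) = t ⊗ₜ[R] ((f - 1) m) := by
    intro f t m
    rw [LinearMap.sub_apply, LinearMap.baseChange_tmul, Module.End.one_apply, LinearMap.sub_apply,
      Module.End.one_apply, TensorProduct.tmul_sub]
  have e2 : ∀ (t : T) (m : M),
      (h.baseChange T - algebraMap R T c • (1 : Module.End T (T ⊗[R] M))) (t ⊗ₜ[R] m) =
      t ⊗ₜ[R] ((h - c • (1 : Module.End R M)) m) := by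
    intro t m
    rw [LinearMap.sub_apply, LinearMap.smul_apply, Module.End.one_apply, LinearMap.baseChange_tmul,
      LinearMap.sub_apply, LinearMap.smul_apply, Module.End.one_apply, TensorProduct.tmul_sub,
      TensorProduct.tmul_smul, algebraMap_smul]
  induction w using TensorProduct.induction_on with
  | zero => simp only [map_zero]
  | tmul t x =>
    rw [LinearMap.baseChange_tmul, Submodule.subtype_apply, e1, e1, e2, H x.1 x.2,
      TensorProduct.tmul_zero]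
  | add a b ha hb => simp only [map_add, ha, hb, add_zero]

end Abstract

/-! ### the modular Jacobian -/

section Concrete

variable {p : ℕ} [hp : Fact p.Prime] {N M' : ℕ} [NeZero N] [NeZero M']

variable (p N M') in
/-- **The cubic identity on torsion points**: for `σ σ' τ` in the inertia group of the canonical place over `p` and
`x ∈ J₀(N)(ℚ̄)[p^n]` killed by `π₁` and `π₂`: `(τ - χ_n(τ)) (σ - 1) (σ' - 1) x = 0`. -/
def CubicTors (π₁ π₂ : JZero N →+ JZero M') : Prop :=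
  ∀ σ ∈ IA p, ∀ σ' ∈ IA p, ∀ τ ∈ IA p, ∀ (n : ℕ) (x : JZero N), p ^ n • x = 0 → π₁ x = 0 → π₂ x = 0 →
    τ • (σ • (σ' • x - x) - (σ' • x - x)) -
      cf p (cyclo p τ : ℤ_[p]) n • (σ • (σ' • x - x) - (σ' • x - x)) = 0

/-- `G_p` acts on the `p^n`-torsion one-units through the cyclotomic character of `G_ℚ`. -/
theorem smul_oneUnit_eq_pow (τ : Gp p) (n : ℕ) (u : oneUnits p) (hu : u ^ (p ^ n) = 1) :
    τ • u = u ^ cf p (cyclo p (localGaloisToGlobal p τ) : ℤ_[p]) n := by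
  apply oneUnits.ext
  rw [coe_smul, coe_pow]
  have hc : (((u : (Kbar p)ˣ) : Kbar p)) ^ (p ^ n) = 1 := by
    have := congrArg (fun v : oneUnits p => ((v : (Kbar p)ˣ) : Kbar p)) hu
    simpa using this
  obtain ⟨z, hz, hzc⟩ := Fermat.Agent.T1B.Plumb66.Inertia.exists_root_preimage p
    (pow_ne_zero n hp.out.ne_zero) hc
  rw [← hzc, ← Fermat.Agent.T1.LocModel46.iota_res, cyclo_spec p _ z hz, map_pow]
  rfl

variable {π₁ π₂ : JZero N →+ JZero M'}

/-- N1 ⇒ the cubic identity on torsion points. -/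
theorem cubicTors_of_localGeomTate (G : LocalGeomTate p N M' π₁ π₂)
    (hπ₁ : ∀ (g : Γ) (x : JZero N), π₁ x = 0 → π₁ (g • x) = 0)
    (hπ₂ : ∀ (g : Γ) (x : JZero N), π₂ x = 0 → π₂ (g • x) = 0) : CubicTors p N M' π₁ π₂ := by
  intro σ hσ σ' hσ' τ hτ n x hx h1 h2
  obtain ⟨s, hs, rfl⟩ := Fermat.Agent.T1B.Plumb66.Inertia.exists_inertial p hσ
  obtain ⟨s', hs', rfl⟩ := Fermat.Agent.T1B.Plumb66.Inertia.exists_inertial p hσ'
  obtain ⟨t, ht, rfl⟩ := Fermat.Agent.T1B.Plumb66.Inertia.exists_inertial p hτ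
  exact G.cubic_on_ker hπ₁ hπ₂ ⟨s, (mem_Ip p).2 hs⟩ ⟨s', (mem_Ip p).2 hs'⟩ ⟨t, (mem_Ip p).2 ht⟩ n _
    (fun u hu => smul_oneUnit_eq_pow t n u hu) x hx h1 h2

/-- `K' = ker β_* ⊂ TJ p N` is Galois stable. -/
theorem rhoT_mem_kerB (hπ₁ : ∀ (g : Γ) (x : JZero N), π₁ x = 0 → π₁ (g • x) = 0)
    (hπ₂ : ∀ (g : Γ) (x : JZero N), π₂ x = 0 → π₂ (g • x) = 0) (g : Γ) {x : TJ p N}
    (hx : x ∈ kerB p π₁ π₂) : rhoT p N g x ∈ kerB p π₁ π₂ :=
  rho_mem_kerB hπ₁ hπ₂ g hx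

/-- **N3: the cubic identity on `K' = ker β_*`**, elementwise. -/
theorem cubic_on_kerB (h : CubicTors p N M' π₁ π₂) {σ σ' τ : Γ} (hσ : σ ∈ IA p) (hσ' : σ' ∈ IA p)
    (hτ : τ ∈ IA p) (x : TJ p N) (hx : x ∈ kerB p π₁ π₂) :
    (rhoT p N τ - (cyclo p τ : ℤ_[p]) • (1 : Module.End ℤ_[p] (TJ p N)))
      ((rhoT p N σ - 1) ((rhoT p N σ' - 1) x)) = 0 :=
  cubic_abs π₁ π₂ σ σ' τ (cyclo p τ : ℤ_[p]) (fun k y hy h1 h2 => h σ hσ σ' hσ' τ hτ k y hy h1 h2) x hx

/-- **N3**, product form in `Module.End ℤ_[p] (TJ p N)`. -/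
theorem cubic_mul_on_kerB (h : CubicTors p N M' π₁ π₂) {σ σ' τ : Γ} (hσ : σ ∈ IA p) (hσ' : σ' ∈ IA p)
    (hτ : τ ∈ IA p) (x : TJ p N) (hx : x ∈ kerB p π₁ π₂) :
    ((rhoT p N τ - algebraMap ℤ_[p] (Module.End ℤ_[p] (TJ p N)) (cyclo p τ : ℤ_[p])) *
      (rhoT p N σ - 1) * (rhoT p N σ' - 1)) x = 0 := by
  rw [Algebra.algebraMap_eq_smul_one]
  exact cubic_on_kerB h hσ hσ' hτ x hx

/-- **N1 + N3**: `LocalGeomTate ⇒` the cubic identity on `K'`. -/
theorem cubic_on_kerB_of_localGeomTate (G : LocalGeomTate p N M' π₁ π₂)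
    (hπ₁ : ∀ (g : Γ) (x : JZero N), π₁ x = 0 → π₁ (g • x) = 0)
    (hπ₂ : ∀ (g : Γ) (x : JZero N), π₂ x = 0 → π₂ (g • x) = 0)
    {σ σ' τ : Γ} (hσ : σ ∈ IA p) (hσ' : σ' ∈ IA p) (hτ : τ ∈ IA p) (x : TJ p N)
    (hx : x ∈ kerB p π₁ π₂) :
    (rhoT p N τ - (cyclo p τ : ℤ_[p]) • (1 : Module.End ℤ_[p] (TJ p N)))
      ((rhoT p N σ - 1) ((rhoT p N σ' - 1) x)) = 0 :=
  cubic_on_kerB (cubicTors_of_localGeomTate G hπ₁ hπ₂) hσ hσ' hτ x hx

/-- **N3 after base change** to a commutative `ℤ_[p]`-algebra `T`: the base-changed cubic operator kills the image of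
`T ⊗ K'` in `T ⊗ TJ p N`. -/
theorem cubic_baseChange (h : CubicTors p N M' π₁ π₂) (T : Type*) [CommRing T] [Algebra ℤ_[p] T]
    {σ σ' τ : Γ} (hσ : σ ∈ IA p) (hσ' : σ' ∈ IA p) (hτ : τ ∈ IA p)
    (y : T ⊗[ℤ_[p]] TJ p N)
    (hy : y ∈ LinearMap.range ((kerB p π₁ π₂).subtype.baseChange T)) :
    ((rhoT p N τ).baseChange T -
        algebraMap ℤ_[p] T (cyclo p τ : ℤ_[p]) • (1 : Module.End T (T ⊗[ℤ_[p]] TJ p N)))
      (((rhoT p N σ).baseChange T - 1) (((rhoT p N σ').baseChange T - 1) y)) = 0 :=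
  baseChange_cubic_abs (kerB p π₁ π₂) (rhoT p N σ) (rhoT p N σ') (rhoT p N τ) (cyclo p τ : ℤ_[p])
    (fun x hx => cubic_on_kerB h hσ hσ' hτ x hx) y hy

end Concrete

end Fermat.Agent.S33P.Geo99
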