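/-
Programme S33 (ruling R1 = report 1278, helper3), brick N3 (helper99), part 2: **N3 at the degeneracy maps**
`π₁ = Degen21.Level.piOne M' p hp`, `π₂ = Degen21.Level.piTwo M' p hp : JZero (M' * p) →+ JZero M'` (the maps of
`Top68.LOCALGEOMStd`; level `M' * p` literally).

* `kerLevel p M' hp : Submodule ℤ_[p] (TJ p (M' * p))` : `K' = ker β_*`;
* `cubicTors_level`, **`cubic_level`**, `cubic_mul_level`, `cubic_baseChange_level` : the cubic identity on `K'` from
  `LocalGeomTate p (M' * p) M' π₁ π₂` (N1 + N3 of `TatePack`);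
* `cubicOnSub_kerB`, `cubicOnSub_level` : the same in helper68's vocabulary `Main68.CubicOnSub (rhoT p N) χ K' (IA p)`,
  `χ g := (cyclo p g : ℤ_[p])` (= the hypothesis `hK` of `Main68.cubicOn_of_dichotomy`);
* **`cubic_level_maps`** : shape (N) of helper68's `Main68/Concrete` (hypotheses `map π₁ x = 0`, `map π₂ x = 0`, product
  form); `cubic_level_betaT` : the same with hypothesis `Lvl61.betaT p M' x = 0` (`kerLevel_eq_ker_betaT`);
* `rhoT_mem_kerLevel` : `K'` is Galois stable;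
* `betaBarLevel p M' hp : (TJ p (M' * p) ⧸ K') →ₗ[ℤ_[p]] (Fin 2 → TJ p M')`, injective (`betaBarLevel_injective`) and
  Galois equivariant (`betaBarLevel_mapQ`).
-/
import Mathlib
import Fermat.Agent.S33P.Geo99.TatePack
import Fermat.Agent.T1B.Degen21.Level
import Fermat.Agent.S33P.Main68.Abstract
import Fermat.Agent.S33P.Lvl61.Beta

set_option autoImplicit false
set_option linter.unusedSectionVars false
set_option linter.unusedVariables false

open Fermat.Agent.TW.B5.Iface ModularCurve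
open Fermat.Agent.T1B.Plumb66.Inertia (IA)
open Fermat.Agent.ES.J.TateModule13 Fermat.Agent.ES.J.TateJZero13 Fermat.Agent.ES.J.CycloChar8
open Fermat.Agent.T1B.Degen21.Level
open scoped TensorProduct

noncomputable section

namespace Fermat.Agent.S33P.Geo99

local notation "Γ" => (AlgebraicClosure ℚ ≃ₐ[ℚ] AlgebraicClosure ℚ)

universe uA uE

variable {p : ℕ} [Fact p.Prime] [NeZero p] {M' : ℕ} [NeZero M']

theorem piOne_ker_smul (hp : p.Prime) (g : Γ) (x : JZero (M' * p)) (h : piOne M' p hp x = 0) :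
    piOne M' p hp (g • x) = 0 := by
  rw [piOne_smul, h]
  exact smul_zero (A := JZero M') g

theorem piTwo_ker_smul (hp : p.Prime) (g : Γ) (x : JZero (M' * p)) (h : piTwo M' p hp x = 0) :
    piTwo M' p hp (g • x) = 0 := by
  rw [piTwo_smul, h]
  exact smul_zero (A := JZero M') g

variable (p M') in
/-- `K' = ker (β_* : Ta_p J₀(M' p) → Ta_p J₀(M')²)`. -/
abbrev kerLevel (hp : p.Prime) : Submodule ℤ_[p] (TJ p (M' * p)) :=
  kerB p (piOne M' p hp) (piTwo M' p hp)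

/-- N1 ⇒ the cubic identity on torsion points at the degeneracy maps. -/
theorem cubicTors_level (hp : p.Prime)
    (G : LocalGeomTate.{uA, uE} p (M' * p) M' (piOne M' p hp) (piTwo M' p hp)) :
    CubicTors p (M' * p) M' (piOne M' p hp) (piTwo M' p hp) :=
  cubicTors_of_localGeomTate G (piOne_ker_smul hp) (piTwo_ker_smul hp)

/-- `K'` is Galois stable. -/
theorem rhoT_mem_kerLevel (hp : p.Prime) (g : Γ) {x : TJ p (M' * p)} (hx : x ∈ kerLevel p M' hp) :
    rhoT p (M' * p) g x ∈ kerLevel p M' hp :=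
  rhoT_mem_kerB (piOne_ker_smul hp) (piTwo_ker_smul hp) g hx

/-- **N3 at level `M' p`: the cubic identity on `K'`.** -/
theorem cubic_level (hp : p.Prime)
    (G : LocalGeomTate.{uA, uE} p (M' * p) M' (piOne M' p hp) (piTwo M' p hp))
    {σ σ' τ : Γ} (hσ : σ ∈ IA p) (hσ' : σ' ∈ IA p) (hτ : τ ∈ IA p) (x : TJ p (M' * p))
    (hx : x ∈ kerLevel p M' hp) :
    (rhoT p (M' * p) τ - (cyclo p τ : ℤ_[p]) • (1 : Module.End ℤ_[p] (TJ p (M' * p))))
      ((rhoT p (M' * p) σ - 1) ((rhoT p (M' * p) σ' - 1) x)) = 0 :=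
  cubic_on_kerB (cubicTors_level hp G) hσ hσ' hτ x hx

/-- **N3 at level `M' p`**, product form. -/
theorem cubic_mul_level (hp : p.Prime)
    (G : LocalGeomTate.{uA, uE} p (M' * p) M' (piOne M' p hp) (piTwo M' p hp))
    {σ σ' τ : Γ} (hσ : σ ∈ IA p) (hσ' : σ' ∈ IA p) (hτ : τ ∈ IA p) (x : TJ p (M' * p))
    (hx : x ∈ kerLevel p M' hp) :
    ((rhoT p (M' * p) τ -
        algebraMap ℤ_[p] (Module.End ℤ_[p] (TJ p (M' * p))) (cyclo p τ : ℤ_[p])) *
      (rhoT p (M' * p) σ - 1) * (rhoT p (M' * p) σ' - 1)) x = 0 :=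
  cubic_mul_on_kerB (cubicTors_level hp G) hσ hσ' hτ x hx

/-- **N3 at level `M' p` after base change.** -/
theorem cubic_baseChange_level (hp : p.Prime)
    (G : LocalGeomTate.{uA, uE} p (M' * p) M' (piOne M' p hp) (piTwo M' p hp))
    (T : Type*) [CommRing T] [Algebra ℤ_[p] T]
    {σ σ' τ : Γ} (hσ : σ ∈ IA p) (hσ' : σ' ∈ IA p) (hτ : τ ∈ IA p)
    (y : T ⊗[ℤ_[p]] TJ p (M' * p))
    (hy : y ∈ LinearMap.range ((kerLevel p M' hp).subtype.baseChange T)) :
    ((rhoT p (M' * p) τ).baseChange T -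
        algebraMap ℤ_[p] T (cyclo p τ : ℤ_[p]) • (1 : Module.End T (T ⊗[ℤ_[p]] TJ p (M' * p))))
      (((rhoT p (M' * p) σ).baseChange T - 1) (((rhoT p (M' * p) σ').baseChange T - 1) y)) = 0 :=
  cubic_baseChange (cubicTors_level hp G) T hσ hσ' hτ y hy

/-- **N3, shape (N) of `Main68/Concrete`**: hypotheses `map π₁ x = 0`, `map π₂ x = 0`, product form. -/
theorem cubic_level_maps (hp : p.Prime)
    (G : LocalGeomTate.{uA, uE} p (M' * p) M' (piOne M' p hp) (piTwo M' p hp))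
    {σ σ' τ : Γ} (hσ : σ ∈ IA p) (hσ' : σ' ∈ IA p) (hτ : τ ∈ IA p) (x : TJ p (M' * p))
    (h1 : map (p := p) (piOne M' p hp) x = 0) (h2 : map (p := p) (piTwo M' p hp) x = 0) :
    ((rhoT p (M' * p) τ - (cyclo p τ : ℤ_[p]) • (1 : Module.End ℤ_[p] (TJ p (M' * p)))) *
      (rhoT p (M' * p) σ - 1) * (rhoT p (M' * p) σ' - 1)) x = 0 :=
  cubic_level hp G hσ hσ' hτ x ⟨LinearMap.mem_ker.2 h1, LinearMap.mem_ker.2 h2⟩

/-- `K' = ker β_*` for helper61's `Lvl61.betaT`. -/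
theorem kerLevel_eq_ker_betaT (hp : p.Prime) :
    kerLevel p M' hp = LinearMap.ker (Fermat.Agent.S33P.Lvl61.betaT p M') := by
  ext x
  rw [LinearMap.mem_ker, Fermat.Agent.S33P.Lvl61.betaT_eq_zero_iff, mem_kerB]

/-- **N3 with hypothesis `β_* x = 0`** (`Lvl61.betaT`). -/
theorem cubic_level_betaT (hp : p.Prime)
    (G : LocalGeomTate.{uA, uE} p (M' * p) M' (piOne M' p hp) (piTwo M' p hp))
    {σ σ' τ : Γ} (hσ : σ ∈ IA p) (hσ' : σ' ∈ IA p) (hτ : τ ∈ IA p) (x : TJ p (M' * p))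
    (hx : Fermat.Agent.S33P.Lvl61.betaT p M' x = 0) :
    ((rhoT p (M' * p) τ - (cyclo p τ : ℤ_[p]) • (1 : Module.End ℤ_[p] (TJ p (M' * p)))) *
      (rhoT p (M' * p) σ - 1) * (rhoT p (M' * p) σ' - 1)) x = 0 :=
  cubic_level hp G hσ hσ' hτ x (by rw [kerLevel_eq_ker_betaT hp]; exact LinearMap.mem_ker.2 hx)

/-- the cyclotomic character with values in `ℤ_[p]` (the `χ` of `Main68.CubicOnSub`). -/
abbrev chiZp (p : ℕ) [Fact p.Prime] (g : Γ) : ℤ_[p] := (cyclo p g : ℤ_[p])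

/-- **N3 in the vocabulary of `Main68.Abstract`** (hypothesis `hK` of `cubicOn_of_dichotomy`), any `π₁ π₂`. -/
theorem cubicOnSub_kerB {N : ℕ} [NeZero N] {π₁ π₂ : JZero N →+ JZero M'}
    (h : CubicTors p N M' π₁ π₂) :
    Fermat.Agent.S33P.Main68.CubicOnSub (rhoT p N) (chiZp p) (kerB p π₁ π₂) (IA p) :=
  fun σ hσ σ' hσ' τ hτ k hk => cubic_on_kerB h hσ hσ' hτ k hk

/-- **N3 at level `M' p` in the vocabulary of `Main68.Abstract`.** -/
theorem cubicOnSub_level (hp : p.Prime)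
    (G : LocalGeomTate.{uA, uE} p (M' * p) M' (piOne M' p hp) (piTwo M' p hp)) :
    Fermat.Agent.S33P.Main68.CubicOnSub (rhoT p (M' * p)) (chiZp p) (kerLevel p M' hp) (IA p) :=
  cubicOnSub_kerB (cubicTors_level hp G)

variable (p M') in
/-- `Ta_p J₀(M' p) / K' → Ta_p J₀(M')²`. -/
def betaBarLevel (hp : p.Prime) :
    (TJ p (M' * p) ⧸ kerLevel p M' hp) →ₗ[ℤ_[p]] (Fin 2 → TJ p M') :=
  betaBar p (piOne M' p hp) (piTwo M' p hp)

theorem betaBarLevel_mk (hp : p.Prime) (x : TJ p (M' * p)) (i : Fin 2) :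
    betaBarLevel p M' hp (Submodule.Quotient.mk x) i =
      (![map (p := p) (piOne M' p hp), map (p := p) (piTwo M' p hp)] i) x := rfl

theorem betaBarLevel_injective (hp : p.Prime) : Function.Injective (betaBarLevel p M' hp) :=
  betaBar_injective _ _

theorem kerLevel_le_comap (hp : p.Prime) (g : Γ) :
    kerLevel p M' hp ≤ (kerLevel p M' hp).comap (rhoT p (M' * p) g) :=
  kerB_le_comap (piOne_smul M' p hp) (piTwo_smul M' p hp) g

/-- `Ta_p J₀(M' p) / K' ↪ Ta_p J₀(M')²` is Galois equivariant. -/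
theorem betaBarLevel_mapQ (hp : p.Prime) (g : Γ) (q : TJ p (M' * p) ⧸ kerLevel p M' hp)
    (i : Fin 2) :
    betaBarLevel p M' hp
        ((kerLevel p M' hp).mapQ (kerLevel p M' hp) (rhoT p (M' * p) g) (kerLevel_le_comap hp g) q) i =
      rhoT p M' g (betaBarLevel p M' hp q i) :=
  betaBar_mapQ (piOne_smul M' p hp) (piTwo_smul M' p hp) g q i

end Fermat.Agent.S33P.Geo99
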